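import Mathlib.Tactic

/-!
# Transcendence degree drops on proper quotients of domains
-/

set_option autoImplicit false

universe u

namespace Fermat.Agent.AbVar

open Cardinal

/-- A proper quotient domain of a domain has smaller transcendence degree. -/
theorem trdeg_quotient_add_one_le {K O k : Type u} [Field K] [CommRing O] [IsDomain O] [Algebra K O]
    [CommRing k] [IsDomain k] [Algebra K k] (f : O →ₐ[K] k) (hf : Function.Surjective f) (t : O)
    (ht0 : t ≠ 0) (ht : f t = 0) : Algebra.trdeg K k + 1 ≤ Algebra.trdeg K O := by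
  obtain ⟨s, hs⟩ := exists_isTranscendenceBasis K k
  choose Y hY using hf
  let y : s → O := fun i => Y i.1
  have hfy : f ∘ y = Subtype.val := funext fun i => hY i.1
  have hy : AlgebraicIndependent K y := AlgebraicIndependent.of_comp f (hfy ▸ hs.1)
  have htr : Transcendental (Algebra.adjoin K (Set.range y)) t := by
    intro halg
    obtain ⟨r, hr0, hdvd⟩ := halg.exists_nonzero_dvd (mem_nonZeroDivisors_of_ne_zero ht0)
    have hfr : f (r : O) = 0 := by
      obtain ⟨w, hw⟩ := hdvd
      rw [show (r : O) = t * w from hw, map_mul, ht, zero_mul]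
    obtain ⟨P, hP⟩ : ∃ P, MvPolynomial.aeval y P = (r : O) := by
      exact (SetLike.ext_iff.mp (Algebra.adjoin_range_eq_range_aeval K y) _).mp r.2
    have hz : MvPolynomial.aeval (Subtype.val : s → k) P = 0 := by
      rw [← hfy, ← hfr, ← hP, MvPolynomial.comp_aeval_apply]
      rfl
    have : P = 0 := hs.1.eq_zero_of_aeval_eq_zero P hz
    exact hr0 (Subtype.ext (by rw [← hP, this, map_zero]; rfl))
  have h := ((hy.option_iff_transcendental t).mpr htr).cardinalMk_le_trdeg
  rwa [mk_option, hs.cardinalMk_eq_trdeg] at h

/-- An algebraic extension of domains has the same transcendence degree. -/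
theorem trdeg_eq_of_isAlgebraic (K L L' : Type u) [Field K] [CommRing L] [IsDomain L] [CommRing L']
    [IsDomain L'] [Algebra K L] [Algebra K L'] [Algebra L L'] [IsScalarTower K L L']
    [Algebra.IsAlgebraic L L'] (h : Function.Injective (algebraMap L L')) :
    Algebra.trdeg K L = Algebra.trdeg K L' := by
  have : FaithfulSMul L L' := (faithfulSMul_iff_algebraMap_injective L L').mpr h
  rw [← trdeg_add_eq K L (A := L'), trdeg_eq_zero (R := L) (A := L'), add_zero]

theorem not_add_one_le {c : Cardinal.{u}} (h : c < ℵ₀) : ¬ c + 1 ≤ c := by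
  obtain ⟨n, rfl⟩ := Cardinal.lt_aleph0.mp h
  exact_mod_cast Nat.not_succ_le_self n

end Fermat.Agent.AbVar
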