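import Fermat.Agent.AbVar.Nsmul.Finite
import Fermat.Agent.AbVar.Rational
import Fermat.Agent.AbVar.Group

/-!
# The degree of multiplication by an invertible integer is the number of torsion points
-/

set_option autoImplicit false

universe u

noncomputable section

open CategoryTheory AlgebraicGeometry

namespace Fermat.Agent.AbVar

variable {K : Type u} [Field K]

namespace AV

variable (V : AV K)

variable {V} in
/-- A rational point as a constant point. -/
abbrev Pt.const {T : Scheme.{u}} (t : T ⟶ Spec (CommRingCat.of K)) (a : V.K_Points) : V.Pt t :=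
  a.comap t t (Category.comp_id t)

/-- The `R`-valued point at the generic point given by a map out of the function field. -/
def genHom {R : CommRingCat.{u}} (s : V.A.functionField ⟶ R) : Spec R ⟶ V.A :=
  Spec.map s ≫ V.A.fromSpecStalk (genericPoint V.A)

theorem genHom_injective {R : CommRingCat.{u}} {s s' : V.A.functionField ⟶ R}
    (h : V.genHom s = V.genHom s') :
    s = s' :=
  Spec.map_injective ((cancel_mono (V.A.fromSpecStalk (genericPoint V.A))).1 h)

theorem genHom_comp {R : CommRingCat.{u}} (s : V.A.functionField ⟶ R) (φ : V.A ⟶ V.A)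
    [IsDominant φ] :
    V.genHom s ≫ φ = V.genHom (CommRingCat.ofHom (ffMap φ) ≫ s) := by
  change (Spec.map s ≫ V.A.fromSpecStalk (genericPoint V.A)) ≫ φ = Spec.map
    ((V.A.presheaf.stalkSpecializes (specializes_of_eq (genericPoint_of_isDominant φ)) ≫
      φ.stalkMap (genericPoint V.A)) ≫ s) ≫ V.A.fromSpecStalk (genericPoint V.A)
  rw [Spec.map_comp, Spec.map_comp, Category.assoc, Category.assoc, Category.assoc,
    Scheme.SpecMap_stalkSpecializes_fromSpecStalk, Scheme.SpecMap_stalkMap_fromSpecStalk]

variable [IsAlgClosed K]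

theorem const_injective {T : Scheme.{u}} [Nonempty T] (t : T ⟶ Spec (CommRingCat.of K)) :
    Function.Injective (Pt.const (V := V) t) := by
  intro a b h
  obtain ⟨p⟩ := ‹Nonempty T›
  refine Pt.ext (ext_of_apply_closedPoint_eq V.f a.hom_over b.hom_over ?_)
  have hp : t p = IsLocalRing.closedPoint K := Subsingleton.elim _ _
  have := congr($(congrArg Pt.hom h) p)
  rw [Pt.comap_hom, Pt.comap_hom, Scheme.Hom.comp_apply, Scheme.Hom.comp_apply, hp] at this
  exact this

variable {n : ℕ} (hn : (n : K) ≠ 0)

include hn in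
theorem isClosed_singleton_of_mulBy_eq_origin {q : V.A} (hq : (V.mulBy n).base q = V.origin) :
    IsClosed ({q} : Set V.A) := by
  have := V.formallyUnramified_mulBy hn
  have := V.isProper_mulBy' n
  have := locallyQuasiFinite_of_formallyUnramified (V.mulBy n)
  have ho : IsClosed ({V.origin} : Set V.A) :=
    ((pointEquivClosedPoint V.f) ⟨V.zeroHom, Pt.hom_over _⟩).2
  have hS : IsClosed ((V.mulBy n) ⁻¹' {V.origin}) := ho.preimage (V.mulBy n).continuous
  have hd := (V.mulBy n).isDiscrete_preimage_singleton V.origin
  refine isClosed_of_closure_subset fun p hp => ?_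
  have hpS : p ∈ (V.mulBy n) ⁻¹' {V.origin} :=
    closure_minimal (show ({q} : Set V.A) ⊆ _ by rintro _ rfl; exact hq) hS hp
  obtain ⟨W', hW', hW'S⟩ := isDiscrete_iff_forall_mem_exists_isOpen.mp hd p hpS
  have hpW : p ∈ W' := (hW'S.ge rfl).1
  obtain ⟨x, hxW, hxq⟩ := mem_closure_iff.mp hp W' hW' hpW
  have hx : x ∈ W' ∩ (V.mulBy n) ⁻¹' {V.origin} := ⟨hxW, (Set.mem_singleton_iff.1 hxq) ▸ hq⟩
  rw [hW'S] at hx
  exact hx.symm.trans hxq

include hn in
theorem exists_const_eq {F : Type u} [Field F]
    {t : Spec (CommRingCat.of F) ⟶ Spec (CommRingCat.of K)}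
    (d : V.Pt t) (hd : n • d = 0) : ∃ a : V.K_Points, n • a = 0 ∧ d = Pt.const t a := by
  let p := IsLocalRing.closedPoint F
  let q := d.hom p
  have hq : (V.mulBy n).base q = V.origin := by
    have := congr($(Pt.comp_mulBy V d n) p)
    rw [hd, zero_hom] at this
    exact this.trans (congrArg V.zeroHom.base (Subsingleton.elim _ _))
  have hcl := V.isClosed_singleton_of_mulBy_eq_origin hn hq
  let a : V.K_Points := ⟨pointOfClosedPoint V.f q hcl, pointOfClosedPoint_comp V.f q hcl⟩
  have hda : d = Pt.const t a := by
    obtain ⟨g, hg⟩ : ∃ g : V.A.residueField q ⟶ CommRingCat.of F,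
        Spec.map g ≫ V.A.fromSpecResidueField q = d.hom :=
      ⟨_, Scheme.descResidueField_stalkClosedPointTo_fromSpecResidueField F V.A d.hom⟩
    have ht : t = Spec.map g ≫ Spec.map (residueFieldIsoBase V.f q hcl).inv := by
      rw [SpecMap_residueFieldIsoBase_inv, ← Category.assoc, hg, Pt.hom_over]
    ext1
    rw [Pt.comap_hom, ← hg]
    change _ = t ≫ pointOfClosedPoint V.f q hcl
    rw [pointOfClosedPoint, ht, Category.assoc,
      ← Category.assoc (Spec.map (residueFieldIsoBase V.f q hcl).inv),
      ← Spec.map_comp (residueFieldIsoBase V.f q hcl).hom, Iso.hom_inv_id, Spec.map_id,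
      Category.id_comp]
  refine ⟨a, V.const_injective t ?_, hda⟩
  rw [Pt.const, Pt.comap_nsmul, Pt.const, Pt.comap_zero]
  exact (congrArg (n • ·) hda.symm).trans hd

include hn in
theorem exists_nsmul_eq (y : V.K_Points) : ∃ x : V.K_Points, n • x = y := by
  have := V.isFinite_mulBy hn
  have := V.isDominant_mulBy hn
  have hsurj : Function.Surjective (V.mulBy n).base := fun z => by
    have h := (V.mulBy n).denseRange.closure_range
    rw [(V.mulBy n).isClosedMap.isClosed_range.closure_eq] at h
    exact Set.mem_range.1 (h ▸ trivial : z ∈ Set.range (V.mulBy n).base)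
  have hlft : LocallyOfFiniteType V.f := inferInstance
  have := LocallyOfFiniteType.jacobsonSpace V.f
  let z := y.hom (IsLocalRing.closedPoint K)
  have hz : IsClosed ({z} : Set V.A) := ((pointEquivClosedPoint V.f) ⟨y.hom, y.hom_over⟩).2
  obtain ⟨w, hw⟩ := hsurj z
  obtain ⟨x₀, hx₀, hx₀c⟩ :=
    nonempty_inter_closedPoints (X := V.A) (Z := (V.mulBy n) ⁻¹' {z}) ⟨w, hw⟩
    (hz.preimage (V.mulBy n).continuous).isLocallyClosed
  refine ⟨⟨pointOfClosedPoint V.f x₀ hx₀c, pointOfClosedPoint_comp _ _ _⟩, ?_⟩
  refine Pt.ext (ext_of_apply_closedPoint_eq V.f (Pt.hom_over _) y.hom_over ?_)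
  rw [← Pt.comp_mulBy]
  exact (congrArg (V.mulBy n).base (pointOfClosedPoint_apply _ _ _ _)).trans hx₀

include hn in
/-- For `n` invertible in the field, the number of points killed by `m * n` is the product of the
numbers killed by `m` and by `n`. -/
theorem natCard_torsion_mul {m : ℕ} :
    Nat.card {x : V.K_Points // (m * n) • x = 0} =
      Nat.card {x : V.K_Points // m • x = 0} * Nat.card {x : V.K_Points // n • x = 0} := by
  let ν : AddMonoidHom.ker (DistribSMul.toAddMonoidHom V.K_Points (m * n)) →+
      AddMonoidHom.ker (DistribSMul.toAddMonoidHom V.K_Points m) :=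
    { toFun := fun x => ⟨n • x.1, by
        change m • (n • x.1) = 0
        rw [← mul_smul]
        exact x.2⟩
      map_zero' := Subtype.ext (smul_zero n)
      map_add' := fun x y => Subtype.ext (smul_add n x.1 y.1) }
  have hν : Function.Surjective ν := fun y => by
    obtain ⟨x, hx⟩ := V.exists_nsmul_eq hn y.1
    refine ⟨⟨x, ?_⟩, Subtype.ext hx⟩
    change (m * n) • x = 0
    rw [mul_smul, hx]
    exact y.2
  have e1 := AddSubgroup.card_eq_card_quotient_mul_card_addSubgroup ν.ker
  rw [Nat.card_congr (QuotientAddGroup.quotientKerEquivOfSurjective ν hν).toEquiv] at e1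
  refine e1.trans (congrArg₂ (· * ·) rfl (Nat.card_congr ?_))
  exact
    { toFun := fun x => ⟨x.1.1, congrArg Subtype.val x.2⟩
      invFun := fun x => ⟨⟨x.1, by change (m * n) • x.1 = 0; rw [mul_smul, x.2, smul_zero]⟩,
        Subtype.ext x.2⟩
      left_inv := fun x => rfl
      right_inv := fun x => rfl }

include hn in
theorem natCard_algHom {φ : V.A ⟶ V.A} [IsDominant φ] (hφ : φ = V.mulBy n)
    (Ω : Type u) [Field Ω] [Algebra V.A.functionField Ω] :
    Nat.card (V.A.functionField →ₐ[(ffMap φ).fieldRange] Ω) =
      Nat.card {x : V.K_Points // n • x = 0} := by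
  let L := V.A.functionField
  -- An embedding over the image of `[n]^*` is a geometric generic point with the same multiple.
  let ι : L ⟶ CommRingCat.of Ω := CommRingCat.ofHom (algebraMap L Ω)
  let t := V.genHom ι ≫ V.f
  let x : V.Pt t := ⟨V.genHom ι, rfl⟩
  have hover : ∀ s : L ⟶ CommRingCat.of Ω, CommRingCat.ofHom (ffMap φ) ≫ s =
      CommRingCat.ofHom (ffMap φ) ≫ ι →
      V.genHom s ≫ V.f = t := fun s hs => by
    calc V.genHom s ≫ V.f = (V.genHom s ≫ φ) ≫ V.f := by rw [Category.assoc, hφ, mulBy_over]
      _ = (V.genHom ι ≫ φ) ≫ V.f :=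
          congrArg (· ≫ V.f) ((V.genHom_comp s φ).trans
            ((congrArg V.genHom hs).trans (V.genHom_comp ι φ).symm))
      _ = t := by rw [Category.assoc, hφ, mulBy_over]
  have hfix : ∀ σ : L →ₐ[(ffMap φ).fieldRange] Ω,
      CommRingCat.ofHom (ffMap φ) ≫ CommRingCat.ofHom (σ : L →+* Ω) =
          CommRingCat.ofHom (ffMap φ) ≫ ι := by
    intro σ
    ext b
    exact σ.commutes ⟨ffMap φ b, b, rfl⟩
  let toTor : (L →ₐ[(ffMap φ).fieldRange] Ω) → V.Pt t := fun σ =>
    ⟨V.genHom (CommRingCat.ofHom (σ : L →+* Ω)), hover _ (hfix σ)⟩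
  have hd : ∀ σ, n • (toTor σ - x) = 0 := fun σ => by
    rw [nsmul_sub, sub_eq_zero]
    ext1
    rw [← Pt.comp_mulBy, ← Pt.comp_mulBy, ← hφ]
    exact (V.genHom_comp _ φ).trans ((congrArg V.genHom (hfix σ)).trans (V.genHom_comp _ φ).symm)
  -- Its difference from the generic point is a constant, `n`-torsion, point.
  choose a ha hax using fun σ => V.exists_const_eq hn (toTor σ - x) (hd σ)
  refine Nat.card_congr (Equiv.ofBijective (fun σ => ⟨a σ, ha σ⟩) ⟨fun σ σ' h => ?_, fun b => ?_⟩)
  · have e : toTor σ = toTor σ' := by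
      rw [← sub_left_inj (a := x), hax, hax, show a σ = a σ' from congrArg Subtype.val h]
    exact AlgHom.coe_ringHom_injective
      (congrArg CommRingCat.Hom.hom (V.genHom_injective (congrArg Pt.hom e)))
  -- Conversely translation by a torsion point gives such an embedding.
  · have : IsIso (translate V.G b.1) := (translateIso V.G b.1).isIso_hom
    have : Surjective (translate V.G b.1) := inferInstance
    let s : L ⟶ CommRingCat.of Ω := CommRingCat.ofHom (ffMap (translate V.G b.1)) ≫ ι
    have hs : V.genHom s = (x + Pt.const t b.1).hom := by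
      exact ((V.genHom_comp ι _).symm.trans (comp_translate V.G t x b.1))
    have hs' : CommRingCat.ofHom (ffMap φ) ≫ s = CommRingCat.ofHom (ffMap φ) ≫ ι := by
      apply V.genHom_injective
      refine (V.genHom_comp s φ).symm.trans (Eq.trans ?_ (V.genHom_comp ι φ))
      rw [hs, hφ]
      change _ = x.hom ≫ _
      rw [Pt.comp_mulBy, Pt.comp_mulBy, nsmul_add, ← Pt.comap_nsmul, b.2, Pt.comap_zero, add_zero]
    let σ : L →ₐ[(ffMap φ).fieldRange] Ω :=
      { s.hom with
        commutes' := by
          rintro ⟨_, c, rfl⟩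
          exact congr($hs' c) }
    refine ⟨σ, Subtype.ext (V.const_injective t ?_)⟩
    rw [← hax, sub_eq_iff_eq_add']
    exact Pt.ext hs

omit [IsAlgClosed K] in
include hn in
theorem formallyUnramified_ffMap [IsDominant (V.mulBy n)] :
    (ffMap (V.mulBy n)).FormallyUnramified ∧ (ffMap (V.mulBy n)).EssFiniteType := by
  have := V.formallyUnramified_mulBy hn
  have := V.isProper_mulBy' n
  let h := specializes_of_eq (genericPoint_of_isDominant (V.mulBy n))
  have hs : Function.Surjective (V.A.presheaf.stalkSpecializes h) := fun a =>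
    ⟨(V.A.presheaf.stalkSpecializes
        (specializes_of_eq (genericPoint_of_isDominant (V.mulBy n)).symm)) a, by
      rw [← CommRingCat.comp_apply, TopCat.Presheaf.stalkSpecializes_comp]
      exact congr($(V.A.presheaf.stalkSpecializes_refl _) a)⟩
  constructor
  · exact RingHom.FormallyUnramified.stableUnderComposition _ _
      (RingHom.FormallyUnramified.of_surjective hs)
      (FormallyUnramified.stalkMap (V.mulBy n) (genericPoint V.A))
  · exact RingHom.EssFiniteType.comp
      (RingHom.FiniteType.of_surjective _ hs).essFiniteType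
      (LocallyOfFiniteType.stalkMap (V.mulBy n) (genericPoint V.A))

include hn in
/-- For `n` invertible in the field, the pull-back by `[n]` is a separable extension of degree the
number of points killed by `n`. -/
theorem ffMap_mulBy_degree [IsDominant (V.mulBy n)] :
    FiniteDimensional (ffMap (V.mulBy n)).fieldRange V.A.functionField ∧
      Algebra.IsSeparable (ffMap (V.mulBy n)).fieldRange V.A.functionField ∧
        Module.finrank (ffMap (V.mulBy n)).fieldRange V.A.functionField =
          Nat.card {x : V.K_Points // n • x = 0} := by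
  let φ := ffMap (V.mulBy n)
  let E := φ.fieldRange
  obtain ⟨hu, he⟩ := V.formallyUnramified_ffMap hn
  have hcomp : (algebraMap E V.A.functionField).comp φ.rangeRestrictField = φ := rfl
  have hu' : ((algebraMap E V.A.functionField).comp φ.rangeRestrictField).FormallyUnramified := by
    rw [hcomp]; exact hu
  have he' : ((algebraMap E V.A.functionField).comp φ.rangeRestrictField).EssFiniteType := by
    rw [hcomp]; exact he
  have : Algebra.FormallyUnramified E V.A.functionField :=
    RingHom.formallyUnramified_algebraMap.mp (RingHom.FormallyUnramified.of_comp hu')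
  have : Algebra.EssFiniteType E V.A.functionField :=
    RingHom.essFiniteType_algebraMap.mp (RingHom.EssFiniteType.of_comp φ.rangeRestrictField he')
  have hsep : Algebra.IsSeparable E V.A.functionField :=
    (Algebra.FormallyUnramified.iff_isSeparable E V.A.functionField).mp inferInstance
  have hfin : FiniteDimensional E V.A.functionField :=
    Algebra.FormallyUnramified.finite_of_free E V.A.functionField
  refine ⟨hfin, hsep, ?_⟩
  rw [← AlgHom.card E V.A.functionField (AlgebraicClosure V.A.functionField),
    ← Nat.card_eq_fintype_card]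
  exact V.natCard_algHom hn rfl (AlgebraicClosure V.A.functionField)

end AV

end Fermat.Agent.AbVar

end
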