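import Fermat.Agent.AbVar.Nsmul.Tangent
import Fermat.Agent.AbVar.Nsmul.Alg

/-!
# Multiplication by an invertible integer is finite and dominant
-/

set_option autoImplicit false

universe u

noncomputable section

open CategoryTheory AlgebraicGeometry

namespace Fermat.Agent.AbVar

variable {K : Type u} [Field K]

/-- A formally unramified morphism that is locally of finite type is locally quasi-finite. -/
theorem locallyQuasiFinite_of_formallyUnramified {X Y : Scheme.{u}} (f : X ⟶ Y)
    [FormallyUnramified f] [LocallyOfFiniteType f] : LocallyQuasiFinite f := by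
  rw [HasRingHomProperty.iff_appLE (P := @LocallyQuasiFinite)]
  intro U V e
  let := (f.appLE U.1 V.1 e).hom.toAlgebra
  have : Algebra.FormallyUnramified Γ(Y, U.1) Γ(X, V.1) := f.formallyUnramified_appLE U.2 V.2 e
  have : Algebra.FiniteType Γ(Y, U.1) Γ(X, V.1) := f.finiteType_appLE U.2 V.2 e
  change (algebraMap Γ(Y, U.1) Γ(X, V.1)).QuasiFinite
  rw [RingHom.quasiFinite_algebraMap]
  infer_instance

/-- The scalars in a stalk. -/
def baseStalk {X : Scheme.{u}} (f : X ⟶ Spec (CommRingCat.of K)) (x : X) :
    CommRingCat.of K ⟶ X.presheaf.stalk x :=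
  (Scheme.ΓSpecIso (CommRingCat.of K)).inv ≫ f.appTop ≫ X.presheaf.germ ⊤ x trivial

theorem baseStalk_specializes {X : Scheme.{u}} (f : X ⟶ Spec (CommRingCat.of K)) {x y : X}
    (h : x ⤳ y) :
    baseStalk f y ≫ X.presheaf.stalkSpecializes h = baseStalk f x := by
  simp [baseStalk]

theorem baseStalk_stalkMap {X Y : Scheme.{u}} (f : X ⟶ Spec (CommRingCat.of K))
    (g : Y ⟶ Spec (CommRingCat.of K)) (φ : X ⟶ Y) (h : φ ≫ g = f) (x : X) :
    baseStalk g (φ x) ≫ φ.stalkMap x = baseStalk f x := by
  subst h
  simp [baseStalk, Scheme.Hom.germ_stalkMap]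

theorem trdeg_functionField_lt_aleph0 {X : Scheme.{u}} [IsIntegral X]
    (f : X ⟶ Spec (CommRingCat.of K)) [LocallyOfFiniteType f] :
    let : Algebra K X.functionField := (baseStalk f (genericPoint X)).hom.toAlgebra
    Algebra.trdeg K X.functionField < Cardinal.aleph0 := by
  let : Algebra K X.functionField := (baseStalk f (genericPoint X)).hom.toAlgebra
  obtain ⟨_, ⟨W, hW, rfl⟩, hηW, -⟩ :=
    X.isBasis_affineOpens.exists_subset_of_mem_open (Set.mem_univ (genericPoint X)) isOpen_univ
  have : Nonempty W := ⟨⟨_, hηW⟩⟩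
  let b : CommRingCat.of K ⟶ Γ(X, W) :=
    (Scheme.ΓSpecIso (CommRingCat.of K)).inv ≫ f.appLE ⊤ W (by simp)
  let : Algebra K Γ(X, W) := b.hom.toAlgebra
  have hft : Algebra.FiniteType K Γ(X, W) := by
    change b.hom.FiniteType
    rw [CommRingCat.hom_comp]
    exact (f.finiteType_appLE (isAffineOpen_top _) hW _).comp
      (RingHom.FiniteType.of_surjective _
        (Scheme.ΓSpecIso (CommRingCat.of K)).commRingCatIsoToRingEquiv.symm.surjective)
  have : IsScalarTower K Γ(X, W) X.functionField := by
    refine IsScalarTower.of_algebraMap_eq' ?_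
    have e : b ≫ X.germToFunctionField W = baseStalk f (genericPoint X) := by
      simp [b, baseStalk, Scheme.germToFunctionField, Scheme.Hom.appLE]
    exact congrArg CommRingCat.Hom.hom e.symm
  have := functionField_isFractionRing_of_isAffineOpen X W hW
  have : Algebra.IsAlgebraic Γ(X, W) X.functionField :=
    IsLocalization.isAlgebraic _ (nonZeroDivisors Γ(X, W))
  change Algebra.trdeg K X.functionField < Cardinal.aleph0
  rw [← trdeg_eq_of_isAlgebraic K Γ(X, W) X.functionField (IsFractionRing.injective _ _)]
  exact trdeg_lt_aleph0_of_finiteType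

theorem maximalIdeal_stalk_ne_bot {X : Scheme.{u}} [IsIntegral X] {z : X}
    (hz : z ≠ genericPoint X) :
    IsLocalRing.maximalIdeal (X.presheaf.stalk z) ≠ ⊥ := by
  obtain ⟨_, ⟨W, hW, rfl⟩, hzW, -⟩ :=
    X.isBasis_affineOpens.exists_subset_of_mem_open (Set.mem_univ z) isOpen_univ
  intro h
  have : Nonempty W := ⟨⟨_, hzW⟩⟩
  let p := hW.primeIdealOf ⟨z, hzW⟩
  have hp : p.asIdeal = ⊥ := by
    refine eq_bot_iff.2 fun a ha => ?_
    have hm : X.presheaf.germ W z hzW a ∈ IsLocalRing.maximalIdeal (X.presheaf.stalk z) := by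
      let := X.presheaf.algebra_section_stalk (⟨z, hzW⟩ : W)
      have := hW.isLocalization_stalk ⟨z, hzW⟩
      exact (IsLocalization.AtPrime.to_map_mem_maximal_iff (X.presheaf.stalk z) p.asIdeal a).2 ha
    rw [h, Ideal.mem_bot] at hm
    exact germ_injective_of_isIntegral X z hzW (hm.trans (map_zero _).symm)
  have hη : genericPoint X ∈ W :=
    (genericPoint_spec X).mem_open_set_iff W.isOpen |>.2 ⟨z, trivial, hzW⟩
  have e : p = hW.primeIdealOf ⟨genericPoint X, hη⟩ := by
    ext1
    rw [hW.primeIdealOf_genericPoint, hp, genericPoint_eq_bot_of_affine]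
    rfl
  exact hz ((hW.fromSpec_primeIdealOf ⟨z, hzW⟩).symm.trans
    ((congrArg hW.fromSpec.base e).trans (hW.fromSpec_primeIdealOf ⟨_, hη⟩)))

namespace AV

variable (V : AV K)

/-- Multiplication by an integer is proper. -/
theorem isProper_mulBy' (n : ℤ) : IsProper (V.mulBy n) := by
  have : IsProper (V.mulBy n ≫ V.f) := by rw [mulBy_over]; infer_instance
  exact IsProper.of_comp (V.mulBy n) V.f

/-- Multiplication by an invertible integer is finite. -/
theorem isFinite_mulBy {n : ℕ} (hn : (n : K) ≠ 0) : IsFinite (V.mulBy n) := by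
  have := V.isProper_mulBy' n
  have := V.formallyUnramified_mulBy hn
  have := locallyQuasiFinite_of_formallyUnramified (V.mulBy n)
  exact IsFinite.of_isProper_of_locallyQuasiFinite (V.mulBy n)

theorem mulBy_genericPoint {n : ℕ} (hn : (n : K) ≠ 0) :
    (V.mulBy n).base (genericPoint V.A) = genericPoint V.A := by
  by_contra hne
  have := V.formallyUnramified_mulBy hn
  have := V.isProper_mulBy' n
  let φ := V.mulBy n
  let η := genericPoint V.A
  let z := φ η
  let O := V.A.presheaf.stalk z
  let L := V.A.functionField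
  let kz := V.A.residueField z
  let kη := V.A.residueField η
  let : Algebra K O := (baseStalk V.f z).hom.toAlgebra
  let : Algebra K L := (baseStalk V.f η).hom.toAlgebra
  let : Algebra K kz := (baseStalk V.f z ≫ V.A.residue z).hom.toAlgebra
  let : Algebra K kη := (baseStalk V.f η ≫ V.A.residue η).hom.toAlgebra
  let : Algebra kz kη := (φ.residueFieldMap η).hom.toAlgebra
  have htower : IsScalarTower K kz kη := by
    refine IsScalarTower.of_algebraMap_eq' (congrArg CommRingCat.Hom.hom
      (?_ : baseStalk V.f η ≫ V.A.residue η = (baseStalk V.f z ≫ V.A.residue z) ≫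
        φ.residueFieldMap η))
    rw [Category.assoc, Scheme.residue_residueFieldMap,
      ← baseStalk_stalkMap V.f V.f φ (V.mulBy_over _) η, Category.assoc]
  have hsep : Algebra.IsSeparable kz kη := inferInstance
  -- the residue field of the generic point is the function field
  let rη : L →ₐ[K] kη := { (V.A.residue η).hom with commutes' := fun a => rfl }
  have hrη : Function.Bijective rη :=
    ⟨RingHom.injective (R := L) rη.toRingHom, V.A.residue_surjective η⟩
  have h1 : Algebra.trdeg K kη = Algebra.trdeg K L := (AlgEquiv.ofBijective rη hrη).trdeg_eq.symm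
  have h2 : Algebra.trdeg K kz = Algebra.trdeg K kη :=
    trdeg_eq_of_isAlgebraic K kz kη (algebraMap kz kη).injective
  -- the stalk at the image embeds in the function field
  let ι : O →ₐ[K] L :=
    { (V.A.presheaf.stalkSpecializes ((genericPoint_spec V.A).specializes trivial : η ⤳ z)).hom with
      commutes' := fun a => congr($(baseStalk_specializes V.f
        ((genericPoint_spec V.A).specializes trivial)) a) }
  have hι : Function.Injective ι := IsFractionRing.injective O L
  let r : O →ₐ[K] kz := { (V.A.residue z).hom with commutes' := fun a => rfl }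
  obtain ⟨t, htm, ht0⟩ := Submodule.exists_mem_ne_zero_of_ne_bot (maximalIdeal_stalk_ne_bot hne)
  have hle := (trdeg_quotient_add_one_le r (V.A.residue_surjective z) t ht0
    ((IsLocalRing.residue_eq_zero_iff t).2 htm)).trans (trdeg_le_of_injective ι hι)
  rw [h2, h1] at hle
  exact not_add_one_le (trdeg_functionField_lt_aleph0 V.f) hle

/-- Multiplication by an invertible integer is dominant. -/
theorem isDominant_mulBy {n : ℕ} (hn : (n : K) ≠ 0) : IsDominant (V.mulBy n) := by
  refine ⟨fun x => ?_⟩
  have hsub : ({genericPoint V.A} : Set V.A) ⊆ Set.range (V.mulBy n) := by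
    rintro _ rfl
    exact ⟨genericPoint V.A, V.mulBy_genericPoint hn⟩
  refine closure_mono hsub ?_
  rw [genericPoint_closure]
  trivial

end AV

end Fermat.Agent.AbVar

end
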