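import Fermat.Agent.AbVar.Basic

/-!
# Multiplication by an invertible integer is formally unramified

Points reducing to the origin modulo a square-zero ideal add like derivations.

The main theorem is `AV.formallyUnramified_mulBy`.
-/

set_option autoImplicit false

universe u

noncomputable section

open CategoryTheory CategoryTheory.Limits AlgebraicGeometry

namespace Fermat.Agent.AbVar

variable {K : Type u} [Field K]

/-! ### Triples congruent modulo an ideal -/

/-- The ring of triples congruent modulo an ideal. -/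
def thick {R : Type u} [CommRing R] (I : Ideal R) : Subring (R × R × R) where
  carrier := {x | x.2.1 - x.1 ∈ I ∧ x.2.2 - x.1 ∈ I}
  mul_mem' {x y} hx hy := by
    refine ⟨?_, ?_⟩
    · have e : (x * y).2.1 - (x * y).1 = (x.2.1 - x.1) * y.2.1 + x.1 * (y.2.1 - y.1) := by
        simp only [Prod.fst_mul, Prod.snd_mul]; ring
      exact e ▸ I.add_mem (I.mul_mem_right _ hx.1) (I.mul_mem_left _ hy.1)
    · have e : (x * y).2.2 - (x * y).1 = (x.2.2 - x.1) * y.2.2 + x.1 * (y.2.2 - y.1) := by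
        simp only [Prod.fst_mul, Prod.snd_mul]; ring
      exact e ▸ I.add_mem (I.mul_mem_right _ hx.2) (I.mul_mem_left _ hy.2)
  one_mem' := by simp
  add_mem' {x y} hx hy := by
    refine ⟨?_, ?_⟩
    · simpa [add_sub_add_comm] using I.add_mem hx.1 hy.1
    · simpa [add_sub_add_comm] using I.add_mem hx.2 hy.2
  zero_mem' := by simp
  neg_mem' {x} hx := by
    refine ⟨?_, ?_⟩
    · simpa [neg_add_eq_sub] using I.neg_mem hx.1
    · simpa [neg_add_eq_sub] using I.neg_mem hx.2

namespace thick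

variable {R : Type u} [CommRing R] (I : Ideal R)

/-- The first entry. -/
def p₁ : thick I →+* R := (RingHom.fst R (R × R)).comp (thick I).subtype

/-- The second entry. -/
def p₂ : thick I →+* R := ((RingHom.fst R R).comp (RingHom.snd R (R × R))).comp (thick I).subtype

/-- The third entry. -/
def p₃ : thick I →+* R := ((RingHom.snd R R).comp (RingHom.snd R (R × R))).comp (thick I).subtype

/-- The diagonal. -/
def diag : R →+* thick I :=
  ((RingHom.id R).prod ((RingHom.id R).prod (RingHom.id R))).codRestrict (thick I)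
    fun a => ⟨by simp, by simp⟩

variable {I} (hI : ∀ a ∈ I, ∀ b ∈ I, a * b = 0)

/-- The sum of two first-order displacements. -/
def addHom : thick I →+* R where
  toFun x := x.1.2.1 + x.1.2.2 - x.1.1
  map_one' := by simp
  map_zero' := by simp
  map_add' x y := by
    change (x.1 + y.1).2.1 + (x.1 + y.1).2.2 - (x.1 + y.1).1 = _
    simp only [Prod.fst_add, Prod.snd_add]; ring
  map_mul' x y := by
    change (x.1 * y.1).2.1 + (x.1 * y.1).2.2 - (x.1 * y.1).1 = _
    simp only [Prod.fst_mul, Prod.snd_mul]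
    linear_combination -(hI _ x.2.1 _ y.2.2) - hI _ x.2.2 _ y.2.1

theorem addHom_apply (x : thick I) : addHom hI x = x.1.2.1 + x.1.2.2 - x.1.1 := rfl

include hI in
theorem isNilpotent_of_p₁ (x : thick I) (h : p₁ I x = 0) : IsNilpotent x := by
  have h1 : x.1.1 = 0 := h
  have h2 : x.1.2.1 * x.1.2.1 = 0 := by
    have := x.2.1; rw [h1, sub_zero] at this; exact hI _ this _ this
  have h3 : x.1.2.2 * x.1.2.2 = 0 := by
    have := x.2.2; rw [h1, sub_zero] at this; exact hI _ this _ this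
  refine ⟨2, Subtype.ext ?_⟩
  rw [pow_two]
  exact Prod.ext (by change x.1.1 * x.1.1 = 0; rw [h1, mul_zero]) (Prod.ext h2 h3)

end thick

/-! ### Points and the origin -/

theorem comap_surjective_of_nil {R S : Type u} [CommRing R] [CommRing S] (φ : R →+* S)
    (hφ : Function.Surjective φ) (hn : ∀ x, φ x = 0 → IsNilpotent x) :
    Function.Surjective (PrimeSpectrum.comap φ) := by
  intro p
  have hp : p ∈ Set.range (PrimeSpectrum.comap φ) := by
    rw [range_comap_of_surjective _ φ hφ]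
    exact fun x hx => by
      obtain ⟨m, hm⟩ := hn x hx
      exact p.isPrime.mem_of_pow_mem m (hm ▸ p.asIdeal.zero_mem)
  exact hp

namespace AV

variable (V : AV K)

theorem Pt.comap_sub {T T' : Scheme.{u}} {t : T ⟶ Spec (CommRingCat.of K)}
    (t' : T' ⟶ Spec (CommRingCat.of K)) (ψ : T' ⟶ T) (hψ : ψ ≫ t = t') (x y : V.Pt t) :
    (x - y).comap t' ψ hψ = x.comap t' ψ hψ - y.comap t' ψ hψ := by
  rw [eq_sub_iff_add_eq, ← Pt.comap_add, sub_add_cancel]

/-- Pulling back points commutes with multiples. -/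
theorem Pt.comap_nsmul {T T' : Scheme.{u}} {t : T ⟶ Spec (CommRingCat.of K)}
    (t' : T' ⟶ Spec (CommRingCat.of K)) (ψ : T' ⟶ T) (hψ : ψ ≫ t = t') (n : ℕ) (x : V.Pt t) :
    (n • x).comap t' ψ hψ = n • x.comap t' ψ hψ := by
  induction n with
  | zero => rw [zero_smul, zero_smul, Pt.comap_zero]
  | succ n ih => rw [succ_nsmul, succ_nsmul, Pt.comap_add, ih]

/-- Composing a point with multiplication by `n` gives its `n`-th multiple. -/
theorem Pt.comp_mulBy {T : Scheme.{u}} {t : T ⟶ Spec (CommRingCat.of K)} (x : V.Pt t) (n : ℕ) :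
    x.hom ≫ V.mulBy n = (n • x).hom := by
  have h : (n • V.idPt).comap t x.hom x.hom_over = n • x := by
    rw [Pt.comap_nsmul]
    exact congrArg (n • ·) (Pt.ext (Category.comp_id _))
  rw [← h, mulBy, natCast_zsmul]
  rfl

/-- The origin. -/
def zeroHom : Spec (CommRingCat.of K) ⟶ V.A := (0 : V.K_Points).hom

theorem zero_hom {T : Scheme.{u}} (t : T ⟶ Spec (CommRingCat.of K)) :
    (0 : V.Pt t).hom = t ≫ V.zeroHom := by
  rw [← Pt.comap_zero (V := V) (t := 𝟙 _) t t (Category.comp_id t)]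
  rfl

/-- The origin as a point of the scheme. -/
def origin : V.A := V.zeroHom.base (IsLocalRing.closedPoint K)

theorem range_subset_of_comap_eq_zero {R S : CommRingCat.{u}} (φ : R ⟶ S)
    (hφ : Function.Surjective φ) (hn : ∀ x, φ x = 0 → IsNilpotent x)
    {t : Spec R ⟶ Spec (CommRingCat.of K)} (d : V.Pt t)
    (hd : d.comap (Spec.map φ ≫ t) (Spec.map φ) rfl = 0) : Set.range d.hom ⊆ {V.origin} := by
  rintro _ ⟨p, rfl⟩
  obtain ⟨q, rfl⟩ := comap_surjective_of_nil φ.hom hφ hn p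
  have h := congr($(congrArg Pt.hom hd) q)
  rw [zero_hom] at h
  exact h.trans (congrArg V.zeroHom.base (Subsingleton.elim _ _))

variable (U : V.A.Opens) (hU : IsAffineOpen U) (ho : V.origin ∈ U)

/-- The structure map of an affine open. -/
def baseHom : CommRingCat.of K ⟶ Γ(V.A, U) := Spec.preimage (hU.fromSpec ≫ V.f)

theorem map_baseHom : Spec.map (V.baseHom U hU) = hU.fromSpec ≫ V.f := Spec.map_preimage _

include ho in
theorem range_zeroHom : Set.range V.zeroHom ⊆ Set.range hU.fromSpec := by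
  rw [hU.range_fromSpec]
  rintro _ ⟨p, rfl⟩
  rwa [Subsingleton.elim p (IsLocalRing.closedPoint K)]

/-- Evaluation at the origin. -/
def evHom : Γ(V.A, U) ⟶ CommRingCat.of K :=
  Spec.preimage (IsOpenImmersion.lift hU.fromSpec V.zeroHom (V.range_zeroHom U hU ho))

theorem map_evHom : Spec.map (V.evHom U hU ho) ≫ hU.fromSpec = V.zeroHom := by
  rw [evHom, Spec.map_preimage, IsOpenImmersion.lift_fac]

theorem baseHom_evHom : V.baseHom U hU ≫ V.evHom U hU ho = 𝟙 _ := by
  apply Spec.map_injective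
  rw [Spec.map_comp, map_baseHom, ← Category.assoc, map_evHom, Spec.map_id]
  exact Pt.hom_over _

variable {R : CommRingCat.{u}} {τ : CommRingCat.of K ⟶ R}

/-- The point of a homomorphism. -/
def pointOfHom (ψ : Γ(V.A, U) ⟶ R) (h : V.baseHom U hU ≫ ψ = τ) : V.Pt (Spec.map τ) :=
  ⟨Spec.map ψ ≫ hU.fromSpec, by rw [Category.assoc, ← map_baseHom, ← Spec.map_comp, h]⟩

theorem pointOfHom_injective {ψ ψ' : Γ(V.A, U) ⟶ R} (h : V.baseHom U hU ≫ ψ = τ)
    (h' : V.baseHom U hU ≫ ψ' = τ) (e : V.pointOfHom U hU ψ h = V.pointOfHom U hU ψ' h') : ψ = ψ' :=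
  Spec.map_injective ((cancel_mono hU.fromSpec).1 (congrArg Subtype.val e))

theorem exists_pointOfHom (d : V.Pt (Spec.map τ)) (hd : Set.range d.hom ⊆ U) :
    ∃ ψ h, d = V.pointOfHom U hU ψ h := by
  let l := IsOpenImmersion.lift hU.fromSpec d.hom (hU.range_fromSpec.symm ▸ hd)
  have hl : l ≫ hU.fromSpec = d.hom := IsOpenImmersion.lift_fac _ _ _
  have hh : V.baseHom U hU ≫ Spec.preimage l = τ := Spec.map_injective (by
    rw [Spec.map_comp, map_baseHom, Spec.map_preimage, ← Category.assoc, hl, Pt.hom_over])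
  exact ⟨_, hh,
    Pt.ext (by rw [← hl]; exact (congrArg (· ≫ hU.fromSpec) (Spec.map_preimage l)).symm)⟩

theorem pointOfHom_zero (h : V.baseHom U hU ≫ V.evHom U hU ho ≫ τ = τ) :
    V.pointOfHom U hU (V.evHom U hU ho ≫ τ) h = 0 := by
  ext1
  rw [zero_hom]
  change Spec.map (V.evHom U hU ho ≫ τ) ≫ hU.fromSpec = _
  rw [Spec.map_comp, Category.assoc, map_evHom]

theorem comap_pointOfHom {R' : CommRingCat.{u}} {τ' : CommRingCat.of K ⟶ R'} (χ : R ⟶ R')
    (hχ : τ ≫ χ = τ') (ψ : Γ(V.A, U) ⟶ R) (h : V.baseHom U hU ≫ ψ = τ) :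
    (V.pointOfHom U hU ψ h).comap (Spec.map τ') (Spec.map χ) (by rw [← Spec.map_comp, hχ]) =
      V.pointOfHom U hU (ψ ≫ χ) (by rw [← Category.assoc, h, hχ]) := by
  ext1
  exact ((Category.assoc _ _ _).symm.trans (congrArg (· ≫ hU.fromSpec) (Spec.map_comp ψ χ).symm))

variable (τ) in
theorem baseHom_evHom_comp : V.baseHom U hU ≫ V.evHom U hU ho ≫ τ = τ := by
  rw [← Category.assoc, baseHom_evHom, Category.id_comp]

/-- A homomorphism congruent to the evaluation at the origin. -/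
def Near (I : Ideal R) (τ : CommRingCat.of K ⟶ R) (δ : Γ(V.A, U) ⟶ R) : Prop :=
  ∀ s, δ s - τ (V.evHom U hU ho s) ∈ I

/-- The triple of homomorphisms. -/
def tripleHom (I : Ideal R) (δ δ' : Γ(V.A, U) ⟶ R) (hδ : V.Near U hU ho I τ δ)
    (hδ' : V.Near U hU ho I τ δ') : Γ(V.A, U) ⟶ CommRingCat.of (thick I) :=
  CommRingCat.ofHom ((((V.evHom U hU ho ≫ τ).hom).prod (δ.hom.prod δ'.hom)).codRestrict (thick I)
    fun s => ⟨hδ s, hδ' s⟩)

/-! ### Addition of nearby points and unramifiedness -/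

theorem add_pointOfHom (I : Ideal R) (hI : ∀ a ∈ I, ∀ b ∈ I, a * b = 0) (δ δ' : Γ(V.A, U) ⟶ R)
    (h : V.baseHom U hU ≫ δ = τ) (h' : V.baseHom U hU ≫ δ' = τ) (hn : V.Near U hU ho I τ δ)
    (hn' : V.Near U hU ho I τ δ') :
    ∃ σ hσ, V.pointOfHom U hU δ h + V.pointOfHom U hU δ' h' = V.pointOfHom U hU σ hσ ∧
      ∀ s, σ s = δ s + δ' s - τ (V.evHom U hU ho s) := by
  -- Triples congruent modulo `I` form a ring; adding two deviations is a ring map out of it.
  let Q : CommRingCat.{u} := CommRingCat.of (thick I)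
  let τ3 : CommRingCat.of K ⟶ Q := τ ≫ CommRingCat.ofHom (thick.diag I)
  let e : Γ(V.A, U) ⟶ R := V.evHom U hU ho ≫ τ
  have he : V.baseHom U hU ≫ e = τ := V.baseHom_evHom_comp U hU ho τ
  have hne : V.Near U hU ho I τ e := fun s => by simp [e]
  let q₁ : Q ⟶ R := CommRingCat.ofHom (thick.p₁ I)
  let q₂ : Q ⟶ R := CommRingCat.ofHom (thick.p₂ I)
  let q₃ : Q ⟶ R := CommRingCat.ofHom (thick.p₃ I)
  let qa : Q ⟶ R := CommRingCat.ofHom (thick.addHom hI)
  have hτ₁ : τ3 ≫ q₁ = τ := rfl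
  have hτ₂ : τ3 ≫ q₂ = τ := rfl
  have hτ₃ : τ3 ≫ q₃ = τ := rfl
  have hτa : τ3 ≫ qa = τ := by
    ext a
    change τ a + τ a - τ a = τ a
    ring
  have hcomp : ∀ {a b : Γ(V.A, U) ⟶ R} (ha : V.baseHom U hU ≫ a = τ) (hb : V.baseHom U hU ≫ b = τ)
      (na : V.Near U hU ho I τ a) (nb : V.Near U hU ho I τ b),
      V.baseHom U hU ≫ V.tripleHom U hU ho I a b na nb = τ3 := by
    intro a b ha hb na nb
    ext x
    · exact congr($he x)
    · exact congr($ha x)
    · exact congr($hb x)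
  -- `X` and `Y` are the points over this ring with deviations `(δ, 0)` and `(0, δ')`.
  let X := V.pointOfHom U hU (V.tripleHom U hU ho I δ e hn hne) (hcomp h he hn hne)
  let Y := V.pointOfHom U hU (V.tripleHom U hU ho I e δ' hne hn') (hcomp he h' hne hn')
  have e₁ : (X + Y).comap (Spec.map τ) (Spec.map q₁) (by rw [← Spec.map_comp, hτ₁]) = 0 := by
    rw [Pt.comap_add, V.comap_pointOfHom U hU q₁ hτ₁, V.comap_pointOfHom U hU q₁ hτ₁]
    exact (congrArg₂ (· + ·) (V.pointOfHom_zero U hU ho he) (V.pointOfHom_zero U hU ho he)).trans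
      (add_zero 0)
  obtain ⟨ψ, hψ, hXY⟩ := V.exists_pointOfHom U hU (X + Y) (by
    refine (V.range_subset_of_comap_eq_zero q₁ (fun a => ⟨thick.diag I a, rfl⟩)
      (thick.isNilpotent_of_p₁ hI) (X + Y) ?_).trans (Set.singleton_subset_iff.2 ho)
    ext1
    rw [zero_hom]
    have := congrArg Pt.hom e₁
    rw [zero_hom, Pt.comap_hom] at this
    rw [Pt.comap_hom, this, ← Spec.map_comp, hτ₁])
  -- The components of `X + Y` are `0`, `δ` and `δ'`.
  have k₂ : ψ ≫ q₂ = δ := by
    refine V.pointOfHom_injective U hU (by rw [← Category.assoc, hψ, hτ₂]) h ?_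
    rw [← V.comap_pointOfHom U hU q₂ hτ₂ ψ hψ, ← hXY, Pt.comap_add, V.comap_pointOfHom U hU q₂ hτ₂,
      V.comap_pointOfHom U hU q₂ hτ₂]
    exact (congrArg₂ (· + ·) rfl (V.pointOfHom_zero U hU ho he)).trans (add_zero _)
  have k₃ : ψ ≫ q₃ = δ' := by
    refine V.pointOfHom_injective U hU (by rw [← Category.assoc, hψ, hτ₃]) h' ?_
    rw [← V.comap_pointOfHom U hU q₃ hτ₃ ψ hψ, ← hXY, Pt.comap_add, V.comap_pointOfHom U hU q₃ hτ₃,
      V.comap_pointOfHom U hU q₃ hτ₃]
    exact (congrArg₂ (· + ·) (V.pointOfHom_zero U hU ho he) rfl).trans (zero_add _)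
  have k₁ : ψ ≫ q₁ = e := by
    refine V.pointOfHom_injective U hU (by rw [← Category.assoc, hψ, hτ₁]) he ?_
    rw [← V.comap_pointOfHom U hU q₁ hτ₁ ψ hψ, ← hXY, e₁]
    exact (V.pointOfHom_zero U hU ho he).symm
  -- Push forward along the addition map.
  refine ⟨ψ ≫ qa, by rw [← Category.assoc, hψ, hτa], ?_, fun s => ?_⟩
  · rw [← V.comap_pointOfHom U hU qa hτa ψ hψ, ← hXY, Pt.comap_add, V.comap_pointOfHom U hU qa hτa,
      V.comap_pointOfHom U hU qa hτa]
    congr 1 <;> refine Pt.ext (congrArg (fun χ => Spec.map χ ≫ hU.fromSpec) ?_) <;> ext s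
    · exact ((thick.addHom_apply hI _).trans (show δ s + e s - e s = δ s by ring)).symm
    · exact ((thick.addHom_apply hI _).trans (show e s + δ' s - e s = δ' s by ring)).symm
  · change thick.addHom hI (ψ s) = _
    rw [thick.addHom_apply, ← congr($k₂ s), ← congr($k₃ s),
      ← show (ψ ≫ q₁) s = τ (V.evHom U hU ho s) from congr($k₁ s)]
    rfl

/-- A point which reduces to the origin modulo a square-zero ideal and is killed by an invertible
integer is the origin. -/
theorem eq_zero_of_nsmul_of_comap {R S : CommRingCat.{u}} (φ : R ⟶ S) (hφ : Function.Surjective φ)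
    (hI : RingHom.ker φ.hom ^ 2 = ⊥) (t : Spec R ⟶ Spec (CommRingCat.of K)) (d : V.Pt t)
    (hd : d.comap (Spec.map φ ≫ t) (Spec.map φ) rfl = 0) {n : ℕ} (hn : (n : K) ≠ 0)
    (h : n • d = 0) :
    d = 0 := by
  obtain ⟨τ, rfl⟩ := Spec.map_surjective t
  let I := RingHom.ker φ.hom
  have hI' : ∀ a ∈ I, ∀ b ∈ I, a * b = 0 := fun a ha b hb => by
    have := Ideal.mul_mem_mul ha hb
    rwa [← pow_two, hI, Ideal.mem_bot] at this
  have hnil : ∀ x, φ x = 0 → IsNilpotent x := fun x hx => ⟨2, by rw [pow_two]; exact hI' x hx x hx⟩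
  obtain ⟨_, ⟨U, hU, rfl⟩, ho, -⟩ :=
    V.A.isBasis_affineOpens.exists_subset_of_mem_open (Set.mem_univ V.origin) isOpen_univ
  -- The point is given near the origin by a ring map `δ` congruent to evaluation modulo `I`.
  obtain ⟨δ, hδ, rfl⟩ := V.exists_pointOfHom U hU d
    ((V.range_subset_of_comap_eq_zero φ hφ hnil d hd).trans (Set.singleton_subset_iff.2 ho))
  have hnear : V.Near U hU ho I τ δ := by
    intro s
    have h1 : V.pointOfHom U hU (δ ≫ φ) (τ := τ ≫ φ) (by rw [← Category.assoc, hδ]) = 0 := by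
      ext1
      rw [zero_hom]
      have := congrArg Pt.hom hd
      rw [zero_hom, Pt.comap_hom] at this
      exact ((congrArg (· ≫ hU.fromSpec) (Spec.map_comp δ φ)).trans
        ((Category.assoc _ _ _).trans this)).trans (congrArg (· ≫ V.zeroHom)
          (Spec.map_comp τ φ).symm)
    have h2 : δ ≫ φ = V.evHom U hU ho ≫ τ ≫ φ := by
      refine V.pointOfHom_injective U hU (τ := τ ≫ φ) (by rw [← Category.assoc, hδ])
        (V.baseHom_evHom_comp U hU ho _) ?_
      rw [h1, V.pointOfHom_zero U hU ho]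
    rw [RingHom.mem_ker, map_sub, sub_eq_zero]
    exact congr($h2 s)
  -- Its `m`-th multiple deviates from evaluation by `m` times the deviation of `δ`.
  have key : ∀ m : ℕ, ∃ σ hσ, m • V.pointOfHom U hU δ hδ = V.pointOfHom U hU σ hσ ∧
      ∀ s, σ s = τ (V.evHom U hU ho s) + (m : R) * (δ s - τ (V.evHom U hU ho s)) := by
    intro m
    induction m with
    | zero =>
      exact ⟨_, V.baseHom_evHom_comp U hU ho τ,
        (zero_smul ℕ _).trans (V.pointOfHom_zero U hU ho _).symm,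
        fun s => by simp⟩
    | succ m ih =>
      obtain ⟨σ, hσ, he, hs⟩ := ih
      have hσn : V.Near U hU ho I τ σ := fun s => by
        rw [hs s, add_sub_cancel_left]
        exact I.mul_mem_left _ (hnear s)
      obtain ⟨σ', hσ', he', hs'⟩ := V.add_pointOfHom U hU ho I hI' σ δ hσ hδ hσn hnear
      refine ⟨σ', hσ', by rw [succ_nsmul, he, he'], fun s => ?_⟩
      rw [hs' s, hs s, Nat.cast_succ]
      ring
  obtain ⟨σ, hσ, he, hs⟩ := key n
  -- So `n` times the deviation is zero, and `n` is invertible.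
  have hσe : σ = V.evHom U hU ho ≫ τ :=
    V.pointOfHom_injective U hU hσ (V.baseHom_evHom_comp U hU ho τ)
    (he.symm.trans (h.trans (V.pointOfHom_zero U hU ho _).symm))
  have hu : IsUnit (n : R) := by
    have := (isUnit_iff_ne_zero.2 hn).map τ.hom
    rwa [map_natCast] at this
  rw [← V.pointOfHom_zero U hU ho (V.baseHom_evHom_comp U hU ho τ)]
  congr 1
  ext s
  have := hs s
  rw [congr($hσe s)] at this
  exact sub_eq_zero.1 (hu.mul_right_eq_zero.1 (left_eq_add.1 this))

/-- Multiplication by an invertible integer is formally unramified. -/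
theorem formallyUnramified_mulBy {n : ℕ} (hn : (n : K) ≠ 0) : FormallyUnramified (V.mulBy n) := by
  refine FormallyUnramified.of_hom_ext _ fun R S φ hφ hI g₁ g₂ hg hgm => ?_
  let t := g₁ ≫ V.f
  have ht : g₂ ≫ V.f = t := by
    calc g₂ ≫ V.f = (g₂ ≫ V.mulBy n) ≫ V.f := by rw [Category.assoc, mulBy_over]
      _ = t := by rw [← hgm, Category.assoc, mulBy_over]
  let x₁ : V.Pt t := ⟨g₁, rfl⟩
  let x₂ : V.Pt t := ⟨g₂, ht⟩
  have h0 := V.eq_zero_of_nsmul_of_comap φ hφ hI t (x₂ - x₁) ?_ hn ?_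
  · exact congrArg Pt.hom (sub_eq_zero.1 h0).symm
  · rw [Pt.comap_sub, sub_eq_zero]
    exact Pt.ext hg.symm
  · rw [nsmul_sub, sub_eq_zero]
    ext1
    rw [← Pt.comp_mulBy, ← Pt.comp_mulBy]
    exact hgm.symm

end AV

end Fermat.Agent.AbVar

end
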